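/-
S25 / ATLAS / TW, leaf PTS -- auxiliary file (helper6310): trimmed copy of the author's own
`A0Points6310.lean` (Nullstellensatz points, `A₁₂ = A₁[1/f]`, `f` takes every value at a
`k`-point), namespace renamed to `Fermat.Agent.S25.ATLAS.TW.PTS`.  Core-only, no sorry.
-/
import Fermat.Agent.S25.Core

set_option autoImplicit false
set_option linter.style.haveILetI false

universe u v w

namespace Fermat.Agent.S25.ATLAS.TW.PTS

open scoped TensorProduct

/-! ### Nullstellensatz: points and maximal ideals -/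

section Points

variable {κ : Type v} [Field κ] {B : Type w} [CommRing B] [Algebra κ B]

/-- The kernel of a `κ`-point is a maximal ideal. -/
theorem ker_isMaximal (x : B →ₐ[κ] κ) : (RingHom.ker x).IsMaximal :=
  RingHom.ker_isMaximal_of_surjective (x : B →+* κ)
    (fun c => ⟨algebraMap κ B c, by simp⟩)

/-- A `κ`-point is determined by its kernel. -/
theorem algHom_eq_of_ker_eq {x y : B →ₐ[κ] κ} (h : RingHom.ker x = RingHom.ker y) : x = y := by
  ext b
  have hb : b - algebraMap κ B (x b) ∈ RingHom.ker x := by simp [RingHom.mem_ker]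
  rw [h, RingHom.mem_ker] at hb
  have hb' : y b - x b = 0 := by simpa using hb
  exact (sub_eq_zero.mp hb').symm

/-- `b - x(b)` lies in the kernel of the point `x`. -/
theorem sub_algebraMap_mem_ker (x : B →ₐ[κ] κ) (b : B) :
    b - algebraMap κ B (x b) ∈ RingHom.ker x := by
  simp [RingHom.mem_ker]

variable [IsAlgClosed κ] [Algebra.FiniteType κ B]

/-- **Nullstellensatz.** Over an algebraically closed field, every maximal ideal of a finite
type algebra is the kernel of a point. -/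
theorem exists_algHom_ker_eq (𝔪 : Ideal B) [h𝔪 : 𝔪.IsMaximal] :
    ∃ x : B →ₐ[κ] κ, RingHom.ker x = 𝔪 := by
  let _ : Field (B ⧸ 𝔪) := Ideal.Quotient.field 𝔪
  have : Algebra.FiniteType κ (B ⧸ 𝔪) :=
    Algebra.FiniteType.of_surjective (Ideal.Quotient.mkₐ κ 𝔪) (Ideal.Quotient.mkₐ_surjective κ 𝔪)
  have : Module.Finite κ (B ⧸ 𝔪) := finite_of_finite_type_of_isJacobsonRing κ (B ⧸ 𝔪)
  have hbij : Function.Bijective (algebraMap κ (B ⧸ 𝔪)) :=
    IsAlgClosed.algebraMap_bijective_of_isIntegral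
  let e : κ ≃ₐ[κ] (B ⧸ 𝔪) := AlgEquiv.ofBijective (Algebra.ofId κ (B ⧸ 𝔪)) hbij
  refine ⟨(e.symm : (B ⧸ 𝔪) →ₐ[κ] κ).comp (Ideal.Quotient.mkₐ κ 𝔪), ?_⟩
  ext b
  simp [RingHom.mem_ker, Ideal.Quotient.eq_zero_iff_mem]

/-- **Nullstellensatz**, unique existence. -/
theorem existsUnique_algHom_ker_eq (𝔪 : Ideal B) [h𝔪 : 𝔪.IsMaximal] :
    ∃! x : B →ₐ[κ] κ, RingHom.ker x = 𝔪 := by
  obtain ⟨x, hx⟩ := exists_algHom_ker_eq (κ := κ) 𝔪
  exact ⟨x, hx, fun y hy => algHom_eq_of_ker_eq (hy.trans hx.symm)⟩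

/-- Points of a finite type algebra over an algebraically closed field = maximal ideals. -/
noncomputable def pointEquiv : (B →ₐ[κ] κ) ≃ MaximalSpectrum B :=
  Equiv.ofBijective (fun x => ⟨RingHom.ker x, ker_isMaximal x⟩)
    ⟨fun _ _ h => algHom_eq_of_ker_eq (congrArg MaximalSpectrum.asIdeal h),
     fun 𝔪 => by
      have := 𝔪.isMaximal
      obtain ⟨x, hx⟩ := exists_algHom_ker_eq (κ := κ) 𝔪.asIdeal
      exact ⟨x, MaximalSpectrum.ext hx⟩⟩

@[simp] theorem pointEquiv_asIdeal (x : B →ₐ[κ] κ) :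
    (pointEquiv x).asIdeal = RingHom.ker x := rfl

theorem ker_pointEquiv_symm (𝔪 : MaximalSpectrum B) :
    RingHom.ker ((pointEquiv (κ := κ)).symm 𝔪) = 𝔪.asIdeal := by
  rw [← pointEquiv_asIdeal, Equiv.apply_symm_apply]

end Points

section Loc

variable {k : Type u} [Field k] (𝒞 : CurveData k)

theorem isUnit_r₁_f : IsUnit (𝒞.r₁ 𝒞.f) := IsUnit.of_mul_eq_one _ 𝒞.fg

theorem isUnit_r₂_g : IsUnit (𝒞.r₂ 𝒞.g) :=
  IsUnit.of_mul_eq_one (𝒞.r₁ 𝒞.f) (by rw [mul_comm]; exact 𝒞.fg)

theorem gf : 𝒞.r₂ 𝒞.g * 𝒞.r₁ 𝒞.f = 1 := by rw [mul_comm]; exact 𝒞.fg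

/-- `A₁₂` is the localisation of `A₁` at `f` (via `r₁`). -/
theorem isLocalization₁ :
    @IsLocalization.Away 𝒞.A₁ _ 𝒞.f 𝒞.A₁₂ _ (𝒞.r₁ : 𝒞.A₁ →+* 𝒞.A₁₂).toAlgebra := by
  letI : Algebra 𝒞.A₁ 𝒞.A₁₂ := (𝒞.r₁ : 𝒞.A₁ →+* 𝒞.A₁₂).toAlgebra
  have hmap : ∀ a : 𝒞.A₁, algebraMap 𝒞.A₁ 𝒞.A₁₂ a = 𝒞.r₁ a := fun _ => rfl
  refine (isLocalization_iff _ _).mpr ⟨?_, ?_, ?_⟩
  · rintro ⟨_, n, rfl⟩
    simp only [hmap, map_pow]
    exact (isUnit_r₁_f 𝒞).pow n
  · intro z
    obtain ⟨a, n, rfl⟩ := 𝒞.surj₁ z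
    refine ⟨(a, ⟨𝒞.f ^ n, n, rfl⟩), ?_⟩
    simp only [hmap, map_pow]
    rw [mul_assoc, ← mul_pow, gf, one_pow, mul_one]
  · intro x y h
    exact ⟨1, by rw [𝒞.inj₁ h]⟩


variable {R : Type v} [CommRing R] [Algebra k R]

/-- A point of `A₁` inverting `f` extends to `A₁₂`. -/
theorem exists_extend₁ (x : 𝒞.A₁ →ₐ[k] R) (hx : IsUnit (x 𝒞.f)) :
    ∃ y : 𝒞.A₁₂ →ₐ[k] R, y.comp 𝒞.r₁ = x := by
  letI : Algebra 𝒞.A₁ 𝒞.A₁₂ := (𝒞.r₁ : 𝒞.A₁ →+* 𝒞.A₁₂).toAlgebra
  haveI : IsLocalization.Away 𝒞.f 𝒞.A₁₂ := isLocalization₁ 𝒞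
  have hmap : ∀ a : 𝒞.A₁, algebraMap 𝒞.A₁ 𝒞.A₁₂ a = 𝒞.r₁ a := fun _ => rfl
  let y₀ : 𝒞.A₁₂ →+* R := IsLocalization.Away.lift (S := 𝒞.A₁₂) (g := (x : 𝒞.A₁ →+* R)) 𝒞.f hx
  have hy₀ : ∀ a : 𝒞.A₁, y₀ (𝒞.r₁ a) = x a := fun a => by
    rw [← hmap]
    exact IsLocalization.Away.lift_eq (S := 𝒞.A₁₂) (g := (x : 𝒞.A₁ →+* R)) 𝒞.f hx a
  refine ⟨{ y₀ with commutes' := fun c => ?_ }, ?_⟩
  · have h1 : algebraMap k 𝒞.A₁₂ c = 𝒞.r₁ (algebraMap k 𝒞.A₁ c) := (𝒞.r₁.commutes c).symm
    change y₀ (algebraMap k 𝒞.A₁₂ c) = algebraMap k R c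
    rw [h1, hy₀, AlgHom.commutes]
  · ext a
    exact hy₀ a

end Loc

/-! ### Transcendence of the coordinate and existence of points -/

section Transc

variable {k : Type u} [Field k] [IsAlgClosed k] {A : Type u} [CommRing A] [IsDomain A]
  [Algebra k A]

/-- A domain which is finite over `k[f]` and locally standard smooth of relative dimension one
over the algebraically closed field `k` has `f` transcendental over `k`. -/
theorem transcendental_of_finite_of_smooth (f : A)
    (hfin : Module.Finite (Algebra.adjoin k ({f} : Set A)) A)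
    (hsm : RingHom.Locally (RingHom.IsStandardSmoothOfRelativeDimension 1) (algebraMap k A)) :
    Transcendental k f := by
  intro halg
  have hint : IsIntegral k f := isAlgebraic_iff_isIntegral.mp halg
  have h1 : Module.Finite k (Algebra.adjoin k ({f} : Set A)) :=
    Algebra.finite_adjoin_simple_of_isIntegral hint
  have h2 : Module.Finite k A := Module.Finite.trans (Algebra.adjoin k ({f} : Set A)) A
  have hbij : Function.Bijective (algebraMap k A) :=
    IsAlgClosed.algebraMap_bijective_of_isIntegral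
  obtain ⟨s, hs, h⟩ := hsm
  obtain ⟨t, hts, ht0⟩ : ∃ t ∈ s, t ≠ 0 := by
    by_contra hcon
    have hcon' : ∀ x ∈ s, x = 0 := fun x hx => by
      by_contra hx0
      exact hcon ⟨x, hx, hx0⟩
    have hbot : Ideal.span s = ⊥ := Ideal.span_eq_bot.mpr hcon'
    rw [hbot] at hs
    exact bot_ne_top hs
  have htu : IsUnit t := by
    obtain ⟨c, rfl⟩ := hbij.2 t
    have hc : c ≠ 0 := by
      rintro rfl
      simp at ht0
    exact (IsUnit.mk0 c hc).map (algebraMap k A)
  have hH : Submonoid.powers t ≤ IsUnit.submonoid A := by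
    rintro _ ⟨n, rfl⟩
    exact htu.pow n
  let e : A ≃ₐ[A] Localization.Away t :=
    IsLocalization.atUnits A (Submonoid.powers t) (S := Localization.Away t) hH
  have hloc : Function.Surjective (algebraMap A (Localization.Away t)) := by
    intro y
    refine ⟨e.symm y, ?_⟩
    have h3 := e.commutes (e.symm y)
    rw [Algebra.algebraMap_self, RingHom.id_apply, AlgEquiv.apply_symm_apply] at h3
    exact h3.symm
  have hnt : Nontrivial (Localization.Away t) := e.symm.toEquiv.nontrivial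
  set φ : k →+* Localization.Away t :=
    (algebraMap A (Localization.Away t)).comp (algebraMap k A) with hφdef
  have hφ : Function.Surjective φ := hloc.comp hbij.2
  have hsmt : φ.IsStandardSmoothOfRelativeDimension 1 := h t hts
  letI : Algebra k (Localization.Away t) := φ.toAlgebra
  haveI : Algebra.IsStandardSmoothOfRelativeDimension 1 k (Localization.Away t) := hsmt
  have hrank := Algebra.IsStandardSmoothOfRelativeDimension.rank_kaehlerDifferential
    (R := k) (S := Localization.Away t) 1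
  haveI : Subsingleton (Ω[Localization.Away t⁄k]) :=
    KaehlerDifferential.subsingleton_of_surjective k (Localization.Away t) hφ
  rw [rank_subsingleton'] at hrank
  simp at hrank

/-- Under the hypotheses of `transcendental_of_finite_of_smooth`, `f` takes every value
`c : k` at some `k`-point. -/
theorem exists_point_eq_of_finite_of_smooth (f : A)
    (hfin : Module.Finite (Algebra.adjoin k ({f} : Set A)) A)
    (hsm : RingHom.Locally (RingHom.IsStandardSmoothOfRelativeDimension 1) (algebraMap k A))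
    (c : k) : ∃ x : A →ₐ[k] k, x f = c := by
  have htr : Transcendental k f := transcendental_of_finite_of_smooth f hfin hsm
  let φ : Polynomial k →ₐ[k] A := Polynomial.aeval f
  have hφinj : Function.Injective φ := transcendental_iff_injective.mp htr
  -- `A` is of finite type over `k`
  have hft0 : Algebra.FiniteType k (Algebra.adjoin k ({f} : Set A)) := by
    rw [← Subalgebra.fg_iff_finiteType]
    have hfg := Subalgebra.fg_adjoin_finset (R := k) ({f} : Finset A)
    simpa using hfg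
  have hft : Algebra.FiniteType k A :=
    Algebra.FiniteType.trans hft0 inferInstance
  -- `A` is integral over `k[X]` via `φ`
  have hrange : Algebra.adjoin k ({f} : Set A) = φ.range :=
    Algebra.adjoin_singleton_eq_range_aeval k f
  let ψ : Polynomial k →ₐ[k] Algebra.adjoin k ({f} : Set A) :=
    φ.codRestrict (Algebra.adjoin k ({f} : Set A)) (fun p => by
      rw [hrange]
      exact ⟨p, rfl⟩)
  have hψ : Function.Surjective ψ := by
    rintro ⟨a, ha⟩
    rw [hrange] at ha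
    obtain ⟨p, rfl⟩ := ha
    exact ⟨p, rfl⟩
  have hfinφ : (φ : Polynomial k →+* A).Finite := by
    have h1 : (ψ : Polynomial k →+* Algebra.adjoin k ({f} : Set A)).Finite :=
      RingHom.Finite.of_surjective _ hψ
    have h2 : (algebraMap (Algebra.adjoin k ({f} : Set A)) A).Finite :=
      RingHom.finite_algebraMap.mpr hfin
    exact h2.comp h1
  letI : Algebra (Polynomial k) A := (φ : Polynomial k →+* A).toAlgebra
  have hmap : ∀ p : Polynomial k, algebraMap (Polynomial k) A p = Polynomial.aeval f p :=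
    fun _ => rfl
  haveI : Module.Finite (Polynomial k) A := hfinφ
  haveI : Algebra.IsIntegral (Polynomial k) A := Algebra.IsIntegral.of_finite _ _
  let P : Ideal (Polynomial k) := RingHom.ker (Polynomial.aeval c : Polynomial k →ₐ[k] k)
  haveI : P.IsMaximal := ker_isMaximal (Polynomial.aeval c : Polynomial k →ₐ[k] k)
  have hker : RingHom.ker (algebraMap (Polynomial k) A) ≤ P := by
    have : RingHom.ker (algebraMap (Polynomial k) A) = ⊥ :=
      (RingHom.injective_iff_ker_eq_bot _).mp hφinj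
    rw [this]
    exact bot_le
  obtain ⟨Q, hQmax, hQ⟩ := Ideal.exists_ideal_over_maximal_of_isIntegral (S := A) P hker
  obtain ⟨x, hx⟩ := exists_algHom_ker_eq (κ := k) Q
  refine ⟨x, ?_⟩
  have hmem : (Polynomial.X - Polynomial.C c : Polynomial k) ∈ Q.comap (algebraMap _ A) := by
    rw [hQ]
    exact RingHom.mem_ker.mpr (by simp)
  rw [Ideal.mem_comap, hmap] at hmem
  rw [← hx, RingHom.mem_ker] at hmem
  simpa [sub_eq_zero] using hmem

end Transc

section CurvePoints

variable {k : Type u} [Field k] (𝒞 : CurveData k) [IsAlgClosed k]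

/-- `f` takes every value of `k` at a `k`-point of `U₁`. -/
theorem exists_point₁_f_eq (c : k) : ∃ x : 𝒞.A₁ →ₐ[k] k, x 𝒞.f = c :=
  haveI := 𝒞.dom₁
  exists_point_eq_of_finite_of_smooth 𝒞.f 𝒞.fin₁ 𝒞.smooth₁ c


end CurvePoints

end Fermat.Agent.S25.ATLAS.TW.PTS
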